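/-
S25 package ATLAS/DIV, leaf Chi, helper file (helper8810): the Euler characteristic of the
structure sheaf, `chi (unit (𝒞.chart κ)) = 1 - genus 𝒞` for every field `κ ⊇ k`, and the
resulting form of `Q_chi`: a glued module over a field with `H¹ = 0` and `h⁰ = 1` has
`chi = chi (unit) + genus`.
Imports only the frozen `ATLAS/Defs.lean`.  Complete proofs, standard axioms.
-/
import Fermat.Agent.S25.ATLAS.Defs

set_option autoImplicit false

universe u

namespace Fermat.Agent.S25.ATLAS.DIV.Chi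

open scoped TensorProduct

open GluedModule

variable {k : Type u} [Field k] (𝒞 : CurveData k)

/-- The Čech differential of the structure sheaf over `k`, before tensoring. -/
def cech : (𝒞.A₁ × 𝒞.A₂) →ₗ[k] 𝒞.A₁₂ :=
  𝒞.r₁.toLinearMap.comp (LinearMap.fst k 𝒞.A₁ 𝒞.A₂) -
    𝒞.r₂.toLinearMap.comp (LinearMap.snd k 𝒞.A₁ 𝒞.A₂)

/-- `H¹(C, O)` over `k`, before tensoring. -/
abbrev H1O : Type u := 𝒞.A₁₂ ⧸ LinearMap.range (cech 𝒞)

section

variable (R : Type u) [CommRing R] [Algebra k R]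

theorem map_id_eq_lTensor {A A' : Type u} [CommRing A] [CommRing A'] [Algebra k A]
    [Algebra k A'] (r : A →ₐ[k] A') (x : R ⊗[k] A) :
    Algebra.TensorProduct.map (AlgHom.id R R) r x = LinearMap.lTensor R r.toLinearMap x := by
  induction x using TensorProduct.induction_on with
  | zero => simp
  | tmul a b => simp
  | add x y hx hy => simp only [map_add, hx, hy]

/-- The Čech differential of the structure sheaf over `R`, in explicit form. -/
noncomputable def cechR : ((R ⊗[k] 𝒞.A₁) × (R ⊗[k] 𝒞.A₂)) →ₗ[R] (R ⊗[k] 𝒞.A₁₂) :=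
  (Algebra.TensorProduct.map (AlgHom.id R R) 𝒞.r₁).toLinearMap.comp
      (LinearMap.fst R (R ⊗[k] 𝒞.A₁) (R ⊗[k] 𝒞.A₂)) -
    (Algebra.TensorProduct.map (AlgHom.id R R) 𝒞.r₂).toLinearMap.comp
      (LinearMap.snd R (R ⊗[k] 𝒞.A₁) (R ⊗[k] 𝒞.A₂))

theorem unit_d_eq : (GluedModule.unit (𝒞.chart R)).d = cechR 𝒞 R := rfl

theorem cechR_apply (x : R ⊗[k] 𝒞.A₁) (y : R ⊗[k] 𝒞.A₂) :
    cechR 𝒞 R (x, y) =
      LinearMap.lTensor R 𝒞.r₁.toLinearMap x - LinearMap.lTensor R 𝒞.r₂.toLinearMap y := by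
  rw [← map_id_eq_lTensor, ← map_id_eq_lTensor]
  rfl

theorem lTensor_cech (z : R ⊗[k] (𝒞.A₁ × 𝒞.A₂)) :
    LinearMap.lTensor R (cech 𝒞) z =
      LinearMap.lTensor R 𝒞.r₁.toLinearMap
          (LinearMap.lTensor R (LinearMap.fst k 𝒞.A₁ 𝒞.A₂) z) -
        LinearMap.lTensor R 𝒞.r₂.toLinearMap
          (LinearMap.lTensor R (LinearMap.snd k 𝒞.A₁ 𝒞.A₂) z) := by
  unfold cech
  rw [LinearMap.lTensor_sub, LinearMap.sub_apply, LinearMap.lTensor_comp, LinearMap.lTensor_comp,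
    LinearMap.comp_apply, LinearMap.comp_apply]

/-- The range of the Čech differential of `O` over `R` is the range of the base change of the
Čech differential over `k`. -/
theorem range_cechR :
    ((LinearMap.range (cechR 𝒞 R) : Submodule R (R ⊗[k] 𝒞.A₁₂)) : Set (R ⊗[k] 𝒞.A₁₂)) =
      Set.range (LinearMap.lTensor R (cech 𝒞)) := by
  ext w
  constructor
  · rintro ⟨⟨x, y⟩, rfl⟩
    refine ⟨LinearMap.lTensor R (LinearMap.inl k 𝒞.A₁ 𝒞.A₂) x +
      LinearMap.lTensor R (LinearMap.inr k 𝒞.A₁ 𝒞.A₂) y, ?_⟩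
    have h1 : LinearMap.lTensor R (LinearMap.fst k 𝒞.A₁ 𝒞.A₂)
        (LinearMap.lTensor R (LinearMap.inl k 𝒞.A₁ 𝒞.A₂) x) = x := by
      rw [← LinearMap.comp_apply, ← LinearMap.lTensor_comp, LinearMap.fst_comp_inl,
        LinearMap.lTensor_id, LinearMap.id_apply]
    have h2 : LinearMap.lTensor R (LinearMap.fst k 𝒞.A₁ 𝒞.A₂)
        (LinearMap.lTensor R (LinearMap.inr k 𝒞.A₁ 𝒞.A₂) y) = 0 := by
      rw [← LinearMap.comp_apply, ← LinearMap.lTensor_comp, LinearMap.fst_comp_inr,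
        LinearMap.lTensor_zero, LinearMap.zero_apply]
    have h3 : LinearMap.lTensor R (LinearMap.snd k 𝒞.A₁ 𝒞.A₂)
        (LinearMap.lTensor R (LinearMap.inl k 𝒞.A₁ 𝒞.A₂) x) = 0 := by
      rw [← LinearMap.comp_apply, ← LinearMap.lTensor_comp, LinearMap.snd_comp_inl,
        LinearMap.lTensor_zero, LinearMap.zero_apply]
    have h4 : LinearMap.lTensor R (LinearMap.snd k 𝒞.A₁ 𝒞.A₂)
        (LinearMap.lTensor R (LinearMap.inr k 𝒞.A₁ 𝒞.A₂) y) = y := by
      rw [← LinearMap.comp_apply, ← LinearMap.lTensor_comp, LinearMap.snd_comp_inr,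
        LinearMap.lTensor_id, LinearMap.id_apply]
    rw [lTensor_cech, cechR_apply]
    simp only [map_add, h1, h2, h3, h4, add_zero, zero_add]
  · rintro ⟨z, rfl⟩
    refine ⟨(LinearMap.lTensor R (LinearMap.fst k 𝒞.A₁ 𝒞.A₂) z,
      LinearMap.lTensor R (LinearMap.snd k 𝒞.A₁ 𝒞.A₂) z), ?_⟩
    rw [lTensor_cech]
    exact cechR_apply 𝒞 R _ _

/-- Explicit form of `unitH1Equiv`. -/
noncomputable def cechRCokerEquiv :
    ((R ⊗[k] 𝒞.A₁₂) ⧸ LinearMap.range (cechR 𝒞 R)) ≃ₗ[R] R ⊗[k] H1O 𝒞 := by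
  let π : 𝒞.A₁₂ →ₗ[k] H1O 𝒞 := (LinearMap.range (cech 𝒞)).mkQ
  have hex : Function.Exact (cech 𝒞) π := by
    intro a
    rw [← LinearMap.mem_ker, Submodule.ker_mkQ]
    rfl
  have hsurj : Function.Surjective π := Submodule.mkQ_surjective _
  have hex' : Function.Exact (LinearMap.lTensor R (cech 𝒞)) (LinearMap.lTensor R π) :=
    lTensor_exact R hex hsurj
  have hsurj' : Function.Surjective (π.baseChange R) := by
    rw [LinearMap.baseChange_eq_ltensor]
    exact LinearMap.lTensor_surjective R hsurj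
  have hker : LinearMap.range (cechR 𝒞 R) = LinearMap.ker (π.baseChange R) := by
    apply SetLike.coe_injective
    rw [range_cechR]
    ext w
    rw [SetLike.mem_coe, LinearMap.mem_ker]
    have : π.baseChange R w = LinearMap.lTensor R π w := by
      rw [← LinearMap.baseChange_eq_ltensor]
    rw [this]
    exact (hex' w).symm
  exact (Submodule.quotEquivOfEq _ _ hker).trans ((π.baseChange R).quotKerEquivOfSurjective hsurj')

/-- `H¹(C_R, O) = R ⊗ H¹(C, O)`: `H¹` of the structure sheaf commutes with every base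
change. -/
noncomputable def unitH1Equiv :
    (GluedModule.unit (𝒞.chart R)).H1 ≃ₗ[R] R ⊗[k] H1O 𝒞 :=
  cechRCokerEquiv 𝒞 R

end

section H0

variable (R : Type u) [CommRing R] [Algebra k R]

/-- The diagonal `k → A₁ × A₂`. -/
def diag : k →ₗ[k] (𝒞.A₁ × 𝒞.A₂) :=
  (Algebra.linearMap k 𝒞.A₁).prod (Algebra.linearMap k 𝒞.A₂)

/-- `H⁰(C, O) = k`, as an exact sequence `k → A₁ × A₂ → A₁₂`. -/
theorem exact_diag_cech : Function.Exact (diag 𝒞) (cech 𝒞) := by
  rintro ⟨a, b⟩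
  constructor
  · intro h
    have h' : 𝒞.r₁ a = 𝒞.r₂ b := by
      have : 𝒞.r₁ a - 𝒞.r₂ b = 0 := h
      exact sub_eq_zero.mp this
    obtain ⟨c, hc⟩ := 𝒞.glob a b h'
    refine ⟨c, ?_⟩
    have hb : b = algebraMap k 𝒞.A₂ c := by
      apply 𝒞.inj₂
      rw [← h', hc, AlgHom.commutes, AlgHom.commutes]
    change (algebraMap k 𝒞.A₁ c, algebraMap k 𝒞.A₂ c) = (a, b)
    rw [hc, hb]
  · rintro ⟨c, hc⟩
    have h1 : a = algebraMap k 𝒞.A₁ c := (congrArg Prod.fst hc).symm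
    have h2 : b = algebraMap k 𝒞.A₂ c := (congrArg Prod.snd hc).symm
    change 𝒞.r₁ a - 𝒞.r₂ b = 0
    rw [h1, h2, AlgHom.commutes, AlgHom.commutes, sub_self]

theorem lTensor_algebraLinearMap {A : Type u} [CommRing A] [Algebra k A] (t : R ⊗[k] k) :
    LinearMap.lTensor R (Algebra.linearMap k A) t = (TensorProduct.rid k R t) ⊗ₜ[k] (1 : A) := by
  induction t using TensorProduct.induction_on with
  | zero => simp
  | tmul x y =>
    rw [LinearMap.lTensor_tmul, TensorProduct.rid_tmul, Algebra.linearMap_apply,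
      Algebra.algebraMap_eq_smul_one, TensorProduct.tmul_smul, TensorProduct.smul_tmul']
  | add x y hx hy => simp only [map_add, hx, hy, TensorProduct.add_tmul]

theorem lTensor_cech_inl_add_inr (x : R ⊗[k] 𝒞.A₁) (y : R ⊗[k] 𝒞.A₂) :
    LinearMap.lTensor R (cech 𝒞) (LinearMap.lTensor R (LinearMap.inl k 𝒞.A₁ 𝒞.A₂) x +
      LinearMap.lTensor R (LinearMap.inr k 𝒞.A₁ 𝒞.A₂) y) = cechR 𝒞 R (x, y) := by
  have h1 : LinearMap.lTensor R (LinearMap.fst k 𝒞.A₁ 𝒞.A₂)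
      (LinearMap.lTensor R (LinearMap.inl k 𝒞.A₁ 𝒞.A₂) x) = x := by
    rw [← LinearMap.comp_apply, ← LinearMap.lTensor_comp, LinearMap.fst_comp_inl,
      LinearMap.lTensor_id, LinearMap.id_apply]
  have h2 : LinearMap.lTensor R (LinearMap.fst k 𝒞.A₁ 𝒞.A₂)
      (LinearMap.lTensor R (LinearMap.inr k 𝒞.A₁ 𝒞.A₂) y) = 0 := by
    rw [← LinearMap.comp_apply, ← LinearMap.lTensor_comp, LinearMap.fst_comp_inr,
      LinearMap.lTensor_zero, LinearMap.zero_apply]
  have h3 : LinearMap.lTensor R (LinearMap.snd k 𝒞.A₁ 𝒞.A₂)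
      (LinearMap.lTensor R (LinearMap.inl k 𝒞.A₁ 𝒞.A₂) x) = 0 := by
    rw [← LinearMap.comp_apply, ← LinearMap.lTensor_comp, LinearMap.snd_comp_inl,
      LinearMap.lTensor_zero, LinearMap.zero_apply]
  have h4 : LinearMap.lTensor R (LinearMap.snd k 𝒞.A₁ 𝒞.A₂)
      (LinearMap.lTensor R (LinearMap.inr k 𝒞.A₁ 𝒞.A₂) y) = y := by
    rw [← LinearMap.comp_apply, ← LinearMap.lTensor_comp, LinearMap.snd_comp_inr,
      LinearMap.lTensor_id, LinearMap.id_apply]
  rw [lTensor_cech, cechR_apply]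
  simp only [map_add, h1, h2, h3, h4, add_zero, zero_add]

/-- Flat base change of `H⁰(C, O) = k`: a global section of `O` over `C_R` is a constant. -/
theorem cechR_eq_zero (x : R ⊗[k] 𝒞.A₁) (y : R ⊗[k] 𝒞.A₂) (h : cechR 𝒞 R (x, y) = 0) :
    ∃ c : R, x = c ⊗ₜ[k] (1 : 𝒞.A₁) ∧ y = c ⊗ₜ[k] (1 : 𝒞.A₂) := by
  have hex : Function.Exact (LinearMap.lTensor R (diag 𝒞)) (LinearMap.lTensor R (cech 𝒞)) :=
    Module.Flat.lTensor_exact R (exact_diag_cech 𝒞)
  have hz := lTensor_cech_inl_add_inr 𝒞 R x y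
  rw [h] at hz
  obtain ⟨t, ht⟩ := (hex _).mp hz
  have h1 : LinearMap.lTensor R (LinearMap.fst k 𝒞.A₁ 𝒞.A₂)
      (LinearMap.lTensor R (LinearMap.inl k 𝒞.A₁ 𝒞.A₂) x +
        LinearMap.lTensor R (LinearMap.inr k 𝒞.A₁ 𝒞.A₂) y) = x := by
    rw [map_add, ← LinearMap.comp_apply, ← LinearMap.lTensor_comp, LinearMap.fst_comp_inl,
      LinearMap.lTensor_id, LinearMap.id_apply, ← LinearMap.comp_apply, ← LinearMap.lTensor_comp,
      LinearMap.fst_comp_inr, LinearMap.lTensor_zero, LinearMap.zero_apply, add_zero]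
  have h2 : LinearMap.lTensor R (LinearMap.snd k 𝒞.A₁ 𝒞.A₂)
      (LinearMap.lTensor R (LinearMap.inl k 𝒞.A₁ 𝒞.A₂) x +
        LinearMap.lTensor R (LinearMap.inr k 𝒞.A₁ 𝒞.A₂) y) = y := by
    rw [map_add, ← LinearMap.comp_apply, ← LinearMap.lTensor_comp, LinearMap.snd_comp_inl,
      LinearMap.lTensor_zero, LinearMap.zero_apply, ← LinearMap.comp_apply,
      ← LinearMap.lTensor_comp, LinearMap.snd_comp_inr, LinearMap.lTensor_id,
      LinearMap.id_apply, zero_add]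
  refine ⟨TensorProduct.rid k R t, ?_, ?_⟩
  · rw [← h1, ← ht, ← LinearMap.comp_apply, ← LinearMap.lTensor_comp]
    exact lTensor_algebraLinearMap R t
  · rw [← h2, ← ht, ← LinearMap.comp_apply, ← LinearMap.lTensor_comp]
    exact lTensor_algebraLinearMap R t

theorem cechR_one_one : cechR 𝒞 R ((1 : R ⊗[k] 𝒞.A₁), (1 : R ⊗[k] 𝒞.A₂)) = 0 := by
  change Algebra.TensorProduct.map (AlgHom.id R R) 𝒞.r₁ 1 -
    Algebra.TensorProduct.map (AlgHom.id R R) 𝒞.r₂ 1 = 0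
  rw [map_one, map_one, sub_self]

/-- `H⁰(C_R, O) = R · 1`. -/
theorem ker_cechR :
    LinearMap.ker (cechR 𝒞 R) =
      Submodule.span R {((1 : R ⊗[k] 𝒞.A₁), (1 : R ⊗[k] 𝒞.A₂))} := by
  apply le_antisymm
  · rintro ⟨x, y⟩ hxy
    obtain ⟨c, rfl, rfl⟩ := cechR_eq_zero 𝒞 R x y (LinearMap.mem_ker.mp hxy)
    rw [Submodule.mem_span_singleton]
    refine ⟨c, ?_⟩
    rw [Prod.smul_mk, Algebra.TensorProduct.one_def, Algebra.TensorProduct.one_def,
      TensorProduct.smul_tmul', TensorProduct.smul_tmul', smul_eq_mul, mul_one]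
  · rw [Submodule.span_le, Set.singleton_subset_iff]
    exact LinearMap.mem_ker.mpr (cechR_one_one 𝒞 R)

end H0

/-- The genus is the dimension of `A₁₂ / (A₁ + A₂)`. -/
theorem genus_eq : genus 𝒞 = Module.finrank k (H1O 𝒞) := by
  unfold genus
  rw [(unitH1Equiv 𝒞 k).finrank_eq, Module.finrank_baseChange]

/-- `h¹(O) = genus` over every field `κ ⊇ k`. -/
theorem finrank_H1_unit (κ : Type u) [Field κ] [Algebra k κ] :
    Module.finrank κ (GluedModule.unit (𝒞.chart κ)).H1 = genus 𝒞 := by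
  rw [(unitH1Equiv 𝒞 κ).finrank_eq, Module.finrank_baseChange, genus_eq]

/-- `h⁰(O) = 1` over every field `κ ⊇ k`. -/
theorem finrank_H0_unit (κ : Type u) [Field κ] [Algebra k κ] :
    Module.finrank κ (GluedModule.unit (𝒞.chart κ)).H0 = 1 := by
  change Module.finrank κ (LinearMap.ker (cechR 𝒞 κ)) = 1
  rw [ker_cechR]
  apply finrank_span_singleton
  intro h
  have h1 : (1 : κ ⊗[k] 𝒞.A₁) = 0 := congrArg Prod.fst h
  have : Nontrivial 𝒞.A₁ := 𝒞.dom₁.toNontrivial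
  have hinj : Function.Injective
      (Algebra.TensorProduct.includeLeft : κ →ₐ[κ] κ ⊗[k] 𝒞.A₁) :=
    Algebra.TensorProduct.includeLeft_injective (algebraMap k 𝒞.A₁).injective
  have : (Algebra.TensorProduct.includeLeft : κ →ₐ[κ] κ ⊗[k] 𝒞.A₁) 1 =
      (Algebra.TensorProduct.includeLeft : κ →ₐ[κ] κ ⊗[k] 𝒞.A₁) 0 := by
    rw [map_one, map_zero, h1]
  exact one_ne_zero (hinj this)

/-- `χ(O) = 1 - genus` over every field `κ ⊇ k`. -/
theorem chi_unit (κ : Type u) [Field κ] [Algebra k κ] :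
    GluedModule.chi (GluedModule.unit (𝒞.chart κ)) = 1 - (genus 𝒞 : ℤ) := by
  unfold GluedModule.chi
  rw [finrank_H0_unit, finrank_H1_unit]
  rfl

/-- (`Q_chi` from C1) A glued module over a field with `H¹ = 0` and `h⁰ = 1` has
`χ = χ(O) + genus`. -/
theorem chi_eq_chi_unit_add_genus (κ : Type u) [Field κ] [Algebra k κ]
    (N : GluedModule (𝒞.chart κ)) (h1 : Subsingleton N.H1) (h0 : Module.finrank κ N.H0 = 1) :
    GluedModule.chi N = GluedModule.chi (GluedModule.unit (𝒞.chart κ)) + genus 𝒞 := by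
  rw [chi_unit]
  unfold GluedModule.chi
  rw [h0, Module.finrank_zero_of_subsingleton]
  simp

/-- A `Good` module has `χ = χ(O) + genus`. -/
theorem Good.chi_eq (κ : Type u) [Field κ] [Algebra k κ]
    (N : GluedModule (𝒞.chart κ)) (hN : Good 𝒞 N) :
    GluedModule.chi N = GluedModule.chi (GluedModule.unit (𝒞.chart κ)) + genus 𝒞 :=
  chi_eq_chi_unit_add_genus 𝒞 κ N hN.h1 hN.h0

end Fermat.Agent.S25.ATLAS.DIV.Chi
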